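import Mathlib.LinearAlgebra.Matrix.HadamardMatrix
import Mathlib.NumberTheory.JacobiSum.Basic
import Mathlib.NumberTheory.LegendreSymbol.QuadraticChar.Basic
import Mathlib.Tactic

/-!
# Paley's Hadamard matrices

From the quadratic character of a finite field of odd order `q`: order `q + 1` if `q ≡ 3 mod 4`,
and order `2 (q + 1)` if `q ≡ 1 mod 4`.
-/

set_option autoImplicit false

open Finset Matrix

namespace FA.Paley

variable {K : Type*} [Field K] [Fintype K] [DecidableEq K]

theorem sum_shift (hK : ringChar K ≠ 2) (a : K) :
    ∑ b, quadraticChar K (a - b) = 0 := by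
  rw [← quadraticChar_sum_zero hK]
  exact Fintype.sum_equiv (Equiv.subLeft a) _ _ fun b => rfl

theorem sum_shift_mul (hK : ringChar K ≠ 2) (a c : K) :
    ∑ b, quadraticChar K (a - b) * quadraticChar K (c - b) =
      if a = c then (Fintype.card K : ℤ) - 1 else -1 := by
  split_ifs with h
  · subst h
    rw [sum_congr rfl fun b _ => show quadraticChar K (a - b) * quadraticChar K (a - b) =
      1 - if b = a then 1 else 0 by
        split_ifs with e
        · simp [e]
        · rw [← sq, quadraticChar_sq_one (sub_ne_zero.2 (Ne.symm e))]; simp]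
    simp
  · have hd : a - c ≠ 0 := sub_ne_zero.2 h
    have hJ := jacobiSum_nontrivial_inv (quadraticChar_ne_one hK)
    rw [(quadraticChar_isQuadratic K).inv, jacobiSum] at hJ
    have e : ∀ x : K, quadraticChar K (a - (a - (a - c) * x)) *
        quadraticChar K (c - (a - (a - c) * x)) =
          quadraticChar K (-1) * (quadraticChar K x * quadraticChar K (1 - x)) := by
      intro x
      rw [show a - (a - (a - c) * x) = (a - c) * x by ring,
        show c - (a - (a - c) * x) = -1 * ((a - c) * (1 - x)) by ring, map_mul, map_mul, map_mul]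
      linear_combination (quadraticChar K (-1) * quadraticChar K x * quadraticChar K (1 - x)) *
        quadraticChar_sq_one hd
    rw [← Fintype.sum_equiv ((Equiv.mulLeft₀ _ hd).trans (Equiv.subLeft a)) _ _ fun x => rfl]
    simp only [Equiv.trans_apply, Equiv.mulLeft₀_apply, Equiv.subLeft_apply, e, ← mul_sum, hJ]
    rw [mul_neg, ← sq, quadraticChar_sq_one (neg_ne_zero.2 one_ne_zero)]

theorem neg_one_of_three (hK : Fintype.card K % 4 = 3) (x : K) :
    quadraticChar K (-x) = -quadraticChar K x := by
  have h : quadraticChar K (-1) = -1 := by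
    rw [quadraticChar_eq_neg_one_iff_not_one (neg_ne_zero.2 one_ne_zero),
      quadraticChar_one_iff_isSquare (neg_ne_zero.2 one_ne_zero), FiniteField.isSquare_neg_one_iff]
    simp [hK]
  rw [← neg_one_mul, map_mul, h, neg_one_mul]

theorem neg_one_of_one (hK : Fintype.card K % 4 = 1) (x : K) :
    quadraticChar K (-x) = quadraticChar K x := by
  have h : quadraticChar K (-1) = 1 := by
    rw [quadraticChar_one_iff_isSquare (neg_ne_zero.2 one_ne_zero),
      FiniteField.isSquare_neg_one_iff]
    omega
  rw [← neg_one_mul, map_mul, h, one_mul]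

omit [DecidableEq K] in
theorem char_ne_two (hK : Fintype.card K % 2 = 1) : ringChar K ≠ 2 := fun h => by
  have := FiniteField.even_card_of_char_two h
  omega

theorem mem_unitary_of_eq {z : ℤ} (h : z = 1 ∨ z = -1) : z ∈ unitary ℤ :=
  Unitary.mem_iff_eq_one_or_eq_neg_one.2 h

/-- Paley's first matrix. -/
def paleyOne (K : Type*) [Field K] [Fintype K] [DecidableEq K] :
    Matrix (Option K) (Option K) ℤ :=
  Matrix.of fun i j => match i, j with
    | none, _ => 1
    | some _, none => -1
    | some a, some b => (if a = b then 1 else 0) + quadraticChar K (a - b)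

theorem isHadamard_paleyOne (hK : Fintype.card K % 4 = 3) : (paleyOne K).IsHadamard := by
  have hc := char_ne_two (K := K) (by omega)
  refine IsHadamard.of_mul_conjTranspose (fun i j => mem_unitary_of_eq ?_) ?_
    (IsRegular.of_ne_zero (Nat.cast_ne_zero.2 Fintype.card_ne_zero))
  · rcases i with _ | a <;> rcases j with _ | b <;> simp only [paleyOne, of_apply]
    · simp
    · simp
    · simp
    · by_cases h : a = b
      · simp [h]
      · rw [if_neg h, zero_add]
        exact quadraticChar_dichotomy (sub_ne_zero.2 h)
  · ext i j
    simp only [mul_apply, conjTranspose_apply, star_trivial, Fintype.sum_option, Matrix.smul_apply,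
      Fintype.card_option, smul_eq_mul]
    rcases i with _ | a <;> rcases j with _ | c <;> simp only [paleyOne, of_apply, one_apply]
    · simp
      ring
    · simp [sum_add_distrib, sum_shift hc, -quadraticChar_apply]
    · simp [sum_add_distrib, sum_shift hc, -quadraticChar_apply]
    · simp only [add_mul, mul_add, sum_add_distrib, sum_shift_mul hc, ite_mul, mul_ite, mul_one,
        mul_zero, one_mul, zero_mul, sum_ite_eq, mem_univ, if_true, Option.some.injEq]
      rw [show c - a = -(a - c) by ring, neg_one_of_three hK]
      by_cases h : a = c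
      · subst h
        simp
        ring
      · simp [h]

/-- The symmetric conference matrix. -/
def conference (K : Type*) [Field K] [Fintype K] [DecidableEq K] :
    Matrix (Option K) (Option K) ℤ :=
  Matrix.of fun i j => match i, j with
    | none, none => 0
    | none, some _ => 1
    | some _, none => 1
    | some a, some b => quadraticChar K (a - b)

theorem conference_transpose (hK : Fintype.card K % 4 = 1) :
    (conference K)ᵀ = conference K := by
  ext i j
  rcases i with _ | a <;> rcases j with _ | b <;> simp only [conference, transpose_apply, of_apply]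
  rw [show b - a = -(a - b) by ring, neg_one_of_one hK]

theorem conference_sq (hK : Fintype.card K % 4 = 1) :
    conference K * conference K = (Fintype.card K : ℤ) • (1 : Matrix (Option K) (Option K) ℤ) := by
  have hc := char_ne_two (K := K) (by omega)
  conv_lhs => arg 2; rw [← conference_transpose hK]
  ext i j
  simp only [mul_apply, transpose_apply, Fintype.sum_option, Matrix.smul_apply, smul_eq_mul]
  rcases i with _ | a <;> rcases j with _ | c <;> simp only [conference, of_apply, one_apply]
  · simp
  · simp [sum_shift hc, -quadraticChar_apply]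
  · simp [sum_shift hc, -quadraticChar_apply]
  · rw [sum_shift_mul hc]
    by_cases h : a = c <;> simp [h]

/-- Paley's second matrix. -/
def paleyTwo (K : Type*) [Field K] [Fintype K] [DecidableEq K] :
    Matrix (Option K ⊕ Option K) (Option K ⊕ Option K) ℤ :=
  fromBlocks (conference K + 1) (conference K - 1) (conference K - 1) (-conference K - 1)

theorem isHadamard_paleyTwo (hK : Fintype.card K % 4 = 1) : (paleyTwo K).IsHadamard := by
  have hC := conference_sq hK
  refine IsHadamard.of_mul_conjTranspose (fun i j => mem_unitary_of_eq ?_) ?_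
    (IsRegular.of_ne_zero (Nat.cast_ne_zero.2 Fintype.card_ne_zero))
  · rcases i with (_ | a) | (_ | a) <;> rcases j with (_ | b) | (_ | b) <;>
      simp only [paleyTwo, fromBlocks_apply₁₁, fromBlocks_apply₁₂, fromBlocks_apply₂₁,
        fromBlocks_apply₂₂, Matrix.add_apply, Matrix.sub_apply, Matrix.neg_apply, conference,
        of_apply, one_apply, Option.some.injEq, reduceCtorEq, if_false] <;>
      norm_num [-quadraticChar_apply] <;>
      by_cases h : a = b <;>
      first
        | (simp [h]; done)
        | (rcases quadraticChar_dichotomy (sub_ne_zero.2 h) with e | e <;>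
            simp [h, e, -quadraticChar_apply])
  · rw [conjTranspose_eq_transpose_of_trivial, paleyTwo, fromBlocks_transpose,
      fromBlocks_multiply, ← fromBlocks_one, fromBlocks_smul, Fintype.card_sum,
      Fintype.card_option]
    simp only [transpose_add, transpose_sub, transpose_neg, transpose_one,
      conference_transpose hK, add_mul, sub_mul, mul_add, mul_sub, neg_mul, mul_neg, one_mul,
      mul_one, hC]
    congr 1 <;> ext i j <;>
      simp only [Matrix.add_apply, Matrix.sub_apply, Matrix.neg_apply, Matrix.smul_apply,
        smul_eq_mul, Matrix.zero_apply] <;> push_cast <;> ring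

theorem exists_fin {n : Type*} [Fintype n] [DecidableEq n] {A : Matrix n n ℤ} (hA : A.IsHadamard)
    {m : ℕ} (hm : Fintype.card n = m) : ∃ H : Matrix (Fin m) (Fin m) ℤ, H.IsHadamard :=
  ⟨_, hA.reindex (Fintype.equivFinOfCardEq hm) (Fintype.equivFinOfCardEq hm)⟩

theorem exists_double {m : ℕ} (h : ∃ H : Matrix (Fin m) (Fin m) ℤ, H.IsHadamard) :
    ∃ H : Matrix (Fin (2 * m)) (Fin (2 * m)) ℤ, H.IsHadamard := by
  obtain ⟨H, hH⟩ := h
  have h2 : (!![1, 1; 1, -1] : Matrix (Fin 2) (Fin 2) ℤ).IsHadamard := by
    refine IsHadamard.of_mul_conjTranspose (fun i j => mem_unitary_of_eq ?_) ?_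
      (IsRegular.of_ne_zero (Nat.cast_ne_zero.2 Fintype.card_ne_zero))
    · fin_cases i <;> fin_cases j <;> simp
    · ext i j
      fin_cases i <;> fin_cases j <;> simp [mul_apply, Fin.sum_univ_two]
  exact exists_fin (h2.kronecker hH) (by simp)

theorem exists_pow_two_mul {m : ℕ} (h : ∃ H : Matrix (Fin m) (Fin m) ℤ, H.IsHadamard) (k : ℕ) :
    ∃ H : Matrix (Fin (2 ^ k * m)) (Fin (2 ^ k * m)) ℤ, H.IsHadamard := by
  induction k with
  | zero => rwa [pow_zero, one_mul]
  | succ k ih => rw [pow_succ', mul_assoc]; exact exists_double ih

end FA.Paley
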